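import Mathlib
import Fermat.Prelude.Def_ModularForm_HeckeOperator

set_option autoImplicit false

namespace Fermat.Agent.S22

open UpperHalfPlane ModularFormClass Function ModularForm Matrix.SpecialLinearGroup
open scoped MatrixGroups ModularForm Manifold

/-- upper triangular integral matrix `[a, b; 0, d]` in `GL₂(ℝ)`. -/
noncomputable def tri (a d : ℕ) (b : ℤ) (ha : a ≠ 0) (hd : d ≠ 0) : GL (Fin 2) ℝ :=
  upperTriangularGL a b d (by
    have h1 : (a : ℝ) ≠ 0 := by exact_mod_cast ha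
    have h2 : (d : ℝ) ≠ 0 := by exact_mod_cast hd
    exact mul_ne_zero h1 h2)

@[simp] theorem val_tri (a d : ℕ) (b : ℤ) (ha : a ≠ 0) (hd : d ≠ 0) :
    ((tri a d b ha hd : GL (Fin 2) ℝ) : Matrix (Fin 2) (Fin 2) ℝ)
      = !![(a : ℝ), (b : ℝ); 0, (d : ℝ)] := rfl

theorem det_tri (a d : ℕ) (b : ℤ) (ha : a ≠ 0) (hd : d ≠ 0) :
    ((tri a d b ha hd).det : ℝ) = a * d := by
  rw [Matrix.GeneralLinearGroup.val_det_apply, val_tri, Matrix.det_fin_two_of]
  ring

theorem det_tri_pos (a d : ℕ) (b : ℤ) (ha : a ≠ 0) (hd : d ≠ 0) :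
    0 < ((tri a d b ha hd).det : ℝ) := by
  rw [det_tri]
  have h1 : (0 : ℝ) < a := by exact_mod_cast Nat.pos_of_ne_zero ha
  have h2 : (0 : ℝ) < d := by exact_mod_cast Nat.pos_of_ne_zero hd
  positivity

theorem denom_tri (a d : ℕ) (b : ℤ) (ha : a ≠ 0) (hd : d ≠ 0) (τ : ℍ) :
    denom (tri a d b ha hd) τ = d := by
  simp [denom]

theorem coe_tri_smul (a d : ℕ) (b : ℤ) (ha : a ≠ 0) (hd : d ≠ 0) (τ : ℍ) :
    ((tri a d b ha hd • τ : ℍ) : ℂ) = ((a : ℂ) * τ + b) / d := by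
  rw [coe_smul_of_det_pos (det_tri_pos a d b ha hd)]
  simp [num, denom]

theorem σ_tri (a d : ℕ) (b : ℤ) (ha : a ≠ 0) (hd : d ≠ 0) :
    σ (tri a d b ha hd) = .refl ℝ ℂ := by
  rw [σ, if_pos (det_tri_pos a d b ha hd)]

theorem slash_tri_apply (k : ℤ) (a d : ℕ) (b : ℤ) (ha : a ≠ 0) (hd : d ≠ 0) (f : ℍ → ℂ) (τ : ℍ) :
    (f ∣[k] tri a d b ha hd) τ
      = (((a : ℂ) * d) ^ (k - 1) * (d : ℂ) ^ (-k)) * f (tri a d b ha hd • τ) := by
  rw [ModularForm.slash_apply, σ_tri, det_tri, denom_tri]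
  simp only [ContinuousAlgEquiv.refl_apply]
  have : |((a : ℝ) * d)| = (a : ℝ) * d := abs_of_nonneg (by positivity)
  rw [this]
  push_cast
  ring

/-- Hermite normal form of `diag(N,1) * γ`. -/
theorem hermite (N : ℕ) (hN : N ≠ 0) (γ : SL(2, ℤ)) :
    ∃ (γ' : SL(2, ℤ)) (a d : ℕ) (b : ℤ) (ha : a ≠ 0) (hd : d ≠ 0), a * d = N ∧
      tri N 1 0 hN one_ne_zero * mapGL ℝ γ = mapGL ℝ γ' * tri a d b ha hd ∧
      (a = N → γ ∈ CongruenceSubgroup.Gamma0 N) := by
  set p := γ 0 0 with hp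
  set q := γ 0 1 with hq
  set r := γ 1 0 with hr
  set s := γ 1 1 with hs
  have hdet : p * s - q * r = 1 := by
    have := γ.det_coe
    rw [Matrix.det_fin_two] at this
    exact this
  have hg0 : 0 < Int.gcd (N * p) r := by
    rw [Int.gcd_pos_iff]
    by_contra hcon
    push Not at hcon
    obtain ⟨h1, h2⟩ := hcon
    have hp0 : p = 0 := by
      rcases mul_eq_zero.mp h1 with h | h
      · exact absurd (by exact_mod_cast h) hN
      · exact h
    rw [hp0, h2] at hdet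
    simp at hdet
  obtain ⟨p', r', hcop, hp', hr'⟩ := Int.exists_gcd_one hg0
  set g := Int.gcd (N * p) r with hg
  obtain ⟨u, v, huv⟩ := Int.isCoprime_iff_gcd_eq_one.mpr hcop
  -- u * p' + v * r' = 1
  have hgd : (g : ℤ) * (p' * s - r' * (N * q)) = N := by
    have : (g : ℤ) * (p' * s - r' * (N * q)) = (p' * g) * s - (r' * g) * (N * q) := by ring
    rw [this, ← hp', ← hr']
    linear_combination (N : ℤ) * hdet
  have hdpos : 0 < p' * s - r' * (N * q) := by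
    have h1 : (0 : ℤ) < g := by exact_mod_cast hg0
    have h2 : (0 : ℤ) < N := by exact_mod_cast Nat.pos_of_ne_zero hN
    by_contra hcon
    have : (g : ℤ) * (p' * s - r' * (N * q)) ≤ 0 :=
      mul_nonpos_of_nonneg_of_nonpos h1.le (not_lt.mp hcon)
    omega
  obtain ⟨d, hd⟩ := Int.eq_ofNat_of_zero_le hdpos.le
  have hd0 : d ≠ 0 := by
    rintro rfl
    simp [hd] at hdpos
  obtain ⟨γ', h00, h01, h10, h11⟩ : ∃ γ' : SL(2, ℤ),
      γ' 0 0 = p' ∧ γ' 0 1 = -v ∧ γ' 1 0 = r' ∧ γ' 1 1 = u :=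
    ⟨⟨!![p', -v; r', u], by rw [Matrix.det_fin_two_of]; linear_combination huv⟩,
      rfl, rfl, rfl, rfl⟩
  refine ⟨γ', g, d, u * (N * q) + v * s, hg0.ne', hd0, ?_, ?_, ?_⟩
  · rw [hd] at hgd
    exact_mod_cast hgd
  · apply Units.ext
    have e1 : ((N : ℝ) * (p : ℝ)) = (p' : ℝ) * (g : ℝ) := by exact_mod_cast hp'
    have e2 : (r : ℝ) = (r' : ℝ) * (g : ℝ) := by exact_mod_cast hr'
    have e3 : (u : ℝ) * p' + v * r' = 1 := by exact_mod_cast huv
    have e4 : (p' : ℝ) * s - r' * (N * q) = d := by exact_mod_cast hd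
    ext i j
    fin_cases i <;> fin_cases j
    · simp [Matrix.mul_apply, Fin.sum_univ_two, h00, h01, h10, h11]
      rw [← hp]; exact e1
    · simp [Matrix.mul_apply, Fin.sum_univ_two, h00, h01, h10, h11]
      rw [← hq, ← e4]
      linear_combination (-(N : ℝ) * q) * e3
    · simp [Matrix.mul_apply, Fin.sum_univ_two, h00, h01, h10, h11]
      rw [← hr]; exact e2
    · simp [Matrix.mul_apply, Fin.sum_univ_two, h00, h01, h10, h11]
      rw [← hs, ← e4]
      linear_combination (-(s : ℝ)) * e3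
  · intro hgN
    rw [CongruenceSubgroup.Gamma0_mem, ← hr, ZMod.intCast_zmod_eq_zero_iff_dvd, hr', hgN]
    exact Dvd.intro_left r' rfl

end Fermat.Agent.S22
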