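import Mathlib

set_option autoImplicit false

namespace Fermat.Agent.S22

open UpperHalfPlane ModularFormClass Function
open scoped MatrixGroups ModularForm Manifold

local notation "𝕢" => Periodic.qParam

theorem qParam_add_period {h : ℝ} (hh : h ≠ 0) (w : ℂ) : 𝕢 h (w + h) = 𝕢 h w := by
  unfold Periodic.qParam
  have hh' : (h : ℂ) ≠ 0 := by exact_mod_cast hh
  have : 2 * (Real.pi : ℂ) * Complex.I * (w + h) / h
      = 2 * (Real.pi : ℂ) * Complex.I * w / h + 2 * (Real.pi : ℂ) * Complex.I := by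
    field_simp
  rw [this, Complex.exp_add, Complex.exp_two_pi_mul_I, mul_one]

/-- A function given by a convergent `q`-series is periodic. -/
theorem periodic_of_hasSum {h : ℝ} (hh : 0 < h) {F : ℍ → ℂ} {c : ℕ → ℂ}
    (hF : ∀ τ : ℍ, HasSum (fun m ↦ c m • 𝕢 h τ ^ m) (F τ)) :
    Periodic (F ∘ ofComplex) h := by
  intro w
  by_cases hw : 0 < w.im
  · have hw' : 0 < (w + h).im := by simpa using hw
    simp only [comp_apply, ofComplex_apply_of_im_pos hw', ofComplex_apply_of_im_pos hw]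
    have h1 := hF ⟨w + h, hw'⟩
    have h2 := hF ⟨w, hw⟩
    simp only [qParam_add_period hh.ne'] at h1 h2
    exact h1.unique h2
  · have hw1 : w.im ≤ 0 := not_lt.mp hw
    have hw' : (w + h).im ≤ 0 := by simpa using hw1
    simp [ofComplex_apply_of_im_nonpos hw', ofComplex_apply_of_im_nonpos hw1]

theorem analyticAt_of_hasSum {h : ℝ} (hh : 0 < h) {F : ℍ → ℂ} {c : ℕ → ℂ} (hhol : MDiff F)
    (hF : ∀ τ : ℍ, HasSum (fun m ↦ c m • 𝕢 h τ ^ m) (F τ)) :
    AnalyticAt ℂ (cuspFunction h F) 0 :=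
  analyticAt_cuspFunction_zero hh (periodic_of_hasSum hh hF) hhol
    (isBoundedAtImInfty_of_hasSum_qExpansion hh hF)

theorem qExpansion_of_hasSum {h : ℝ} (hh : 0 < h) {F : ℍ → ℂ} {c : ℕ → ℂ} (hhol : MDiff F)
    (hF : ∀ τ : ℍ, HasSum (fun m ↦ c m • 𝕢 h τ ^ m) (F τ)) :
    qExpansion h F = PowerSeries.mk c := by
  let _ : FunLike (ℍ → ℂ) ℍ ℂ := { coe := id, coe_injective := fun _ _ h => h }
  ext m
  rw [PowerSeries.coeff_mk]
  exact (qExpansion_coeff_unique (F := ℍ → ℂ) F hh (analyticAt_of_hasSum hh hhol hF) hF m).symm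

end Fermat.Agent.S22
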