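import Mathlib
import Fermat.Prelude.Def_ModularForm_HeckeOperator
import Fermat.Agent.S22.QExp
import Fermat.Agent.S22.Hermite

set_option autoImplicit false

namespace Fermat.Agent.S22

open UpperHalfPlane ModularFormClass Function ModularForm Matrix.SpecialLinearGroup
open scoped MatrixGroups ModularForm Manifold Pointwise

/-- restriction of a modular form to a smaller group. -/
noncomputable def restrictSubgroup {Γ Γ' : Subgroup (GL (Fin 2) ℝ)} {k : ℤ} (hle : Γ' ≤ Γ)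
    (f : ModularForm Γ k) : ModularForm Γ' k where
  toFun := f
  slash_action_eq' γ hγ := f.slash_action_eq' γ (hle hγ)
  holo' := f.holo'
  bdd_at_cusps' hc := f.bdd_at_cusps' (hc.mono hle)

@[simp] theorem coe_restrictSubgroup {Γ Γ' : Subgroup (GL (Fin 2) ℝ)} {k : ℤ} (hle : Γ' ≤ Γ)
    (f : ModularForm Γ k) : ⇑(restrictSubgroup hle f) = ⇑f := rfl

theorem Gamma0_le_conj (N : ℕ) (hN : N ≠ 0) :
    (CongruenceSubgroup.Gamma0 N : Subgroup (GL (Fin 2) ℝ)) ≤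
      ConjAct.toConjAct (tri N 1 0 hN one_ne_zero)⁻¹ • 𝒮ℒ := by
  intro x hx
  obtain ⟨γ, hγ, rfl⟩ := Subgroup.mem_map.mp hx
  rw [Subgroup.mem_pointwise_smul_iff_inv_smul_mem, ConjAct.smul_def]
  simp only [map_inv, inv_inv, ConjAct.ofConjAct_toConjAct]
  rw [CongruenceSubgroup.Gamma0_mem, ZMod.intCast_zmod_eq_zero_iff_dvd] at hγ
  obtain ⟨c', hc'⟩ := hγ
  have hdet : γ 0 0 * γ 1 1 - γ 0 1 * γ 1 0 = 1 := by
    have := γ.det_coe
    rw [Matrix.det_fin_two] at this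
    exact this
  obtain ⟨γ', h00, h01, h10, h11⟩ : ∃ γ' : SL(2, ℤ),
      γ' 0 0 = γ 0 0 ∧ γ' 0 1 = N * γ 0 1 ∧ γ' 1 0 = c' ∧ γ' 1 1 = γ 1 1 :=
    ⟨⟨!![γ 0 0, N * γ 0 1; c', γ 1 1], by
      rw [Matrix.det_fin_two_of]; rw [hc'] at hdet; linear_combination hdet⟩,
      rfl, rfl, rfl, rfl⟩
  refine ⟨γ', ?_⟩
  rw [eq_mul_inv_iff_mul_eq]
  apply Units.ext
  have e1 : ((γ 1 0 : ℤ) : ℝ) = N * c' := by exact_mod_cast hc'
  ext i j
  fin_cases i <;> fin_cases j
  · simp [Matrix.mul_apply, Fin.sum_univ_two, h00, h01, h10, h11]; ring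
  · simp [Matrix.mul_apply, Fin.sum_univ_two, h00, h01, h10, h11]
  · simp [Matrix.mul_apply, Fin.sum_univ_two, h00, h01, h10, h11, e1]; ring
  · simp [Matrix.mul_apply, Fin.sum_univ_two, h00, h01, h10, h11]

/-- `N¹¹ Δ(N z)` as a modular form on `Γ₀(N)`. -/
noncomputable def hForm (N : ℕ) (hN : N ≠ 0) : ModularForm (CongruenceSubgroup.Gamma0 N) 12 :=
  restrictSubgroup (Gamma0_le_conj N hN)
    (ModularForm.translate CuspForm.discriminant (tri N 1 0 hN one_ne_zero))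

theorem coe_hForm (N : ℕ) (hN : N ≠ 0) :
    ⇑(hForm N hN) = ModularForm.discriminant ∣[(12 : ℤ)] tri N 1 0 hN one_ne_zero := rfl

theorem hForm_slash (N : ℕ) (hN : N ≠ 0) (γ : SL(2, ℤ)) :
    ∃ (a d : ℕ) (b : ℤ) (ha : a ≠ 0) (hd : d ≠ 0), a * d = N ∧
      ⇑(hForm N hN) ∣[(12 : ℤ)] (mapGL ℝ γ) = ModularForm.discriminant ∣[(12 : ℤ)] tri a d b ha hd ∧
      (a = N → γ ∈ CongruenceSubgroup.Gamma0 N) := by
  obtain ⟨γ', a, d, b, ha, hd, had, heq, hmem⟩ := hermite N hN γ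
  refine ⟨a, d, b, ha, hd, had, ?_, hmem⟩
  rw [coe_hForm, ← SlashAction.slash_mul, heq, SlashAction.slash_mul]
  congr 1
  exact SlashInvariantFormClass.slash_action_eq CuspForm.discriminant _ ⟨γ', rfl⟩

local notation "𝕢" => Periodic.qParam

theorem qParam_tri {N a d : ℕ} (b : ℤ) (ha : a ≠ 0) (hd : d ≠ 0) (had : a * d = N) (τ : ℍ) :
    𝕢 1 (tri a d b ha hd • τ : ℍ) =
      Complex.exp (2 * Real.pi * Complex.I * b / d) * 𝕢 N τ ^ (a ^ 2) := by
  have hd' : (d : ℂ) ≠ 0 := by exact_mod_cast hd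
  have ha' : (a : ℂ) ≠ 0 := by exact_mod_cast ha
  unfold Periodic.qParam
  rw [coe_tri_smul, ← Complex.exp_nat_mul, ← Complex.exp_add]
  congr 1
  rw [← had]
  push_cast
  field_simp
  ring

theorem exp_pow_eq_one {N a d : ℕ} (b : ℤ) (hd : d ≠ 0) (had : a * d = N) :
    Complex.exp (2 * Real.pi * Complex.I * b / d) ^ N = 1 := by
  have hd' : (d : ℂ) ≠ 0 := by exact_mod_cast hd
  rw [← Complex.exp_nat_mul, Complex.exp_eq_one_iff]
  refine ⟨a * b, ?_⟩
  rw [← had]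
  push_cast
  field_simp

/-- the scalar occurring in `Δ ∣[12] tri a d b`. -/
noncomputable def triConst (a d : ℕ) : ℂ := ((a : ℂ) * d) ^ ((12 : ℤ) - 1) * (d : ℂ) ^ (-(12 : ℤ))

theorem triConst_ne_zero {a d : ℕ} (ha : a ≠ 0) (hd : d ≠ 0) : triConst a d ≠ 0 := by
  have hd' : (d : ℂ) ≠ 0 := by exact_mod_cast hd
  have ha' : (a : ℂ) ≠ 0 := by exact_mod_cast ha
  unfold triConst
  exact mul_ne_zero (zpow_ne_zero _ (mul_ne_zero ha' hd')) (zpow_ne_zero _ hd')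

/-- coefficients of the `q_N`-expansion of `Δ ∣[12] tri a d b`. -/
noncomputable def triCoeff (a d : ℕ) (ω : ℂ) (m : ℕ) : ℂ :=
  if a ^ 2 ∣ m then
    triConst a d * ((qExpansion 1 ModularForm.discriminant).coeff (m / a ^ 2) * ω ^ (m / a ^ 2))
  else 0

theorem hasSum_tri {N a d : ℕ} (b : ℤ) (ha : a ≠ 0) (hd : d ≠ 0) (had : a * d = N) (τ : ℍ) :
    HasSum (fun m ↦ triCoeff a d (Complex.exp (2 * Real.pi * Complex.I * b / d)) m • 𝕢 N τ ^ m)
      ((ModularForm.discriminant ∣[(12 : ℤ)] tri a d b ha hd) τ) := by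
  set ω := Complex.exp (2 * Real.pi * Complex.I * b / d) with hω
  have h1 := ModularForm.hasSum_qExpansion (f := CuspForm.discriminant) one_pos
    one_mem_strictPeriods_SL (tri a d b ha hd • τ)
  rw [slash_tri_apply]
  have h2 := h1.mul_left (triConst a d)
  have ha2 : 0 < a ^ 2 := by positivity
  have hinj : Function.Injective (fun n : ℕ => a ^ 2 * n) := fun x y hxy =>
    Nat.eq_of_mul_eq_mul_left ha2 hxy
  rw [← hinj.hasSum_iff]
  · have hfun : ((fun m ↦ triCoeff a d ω m • 𝕢 N τ ^ m) ∘ fun n : ℕ => a ^ 2 * n) =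
        fun i => triConst a d * ((PowerSeries.coeff i) (qExpansion 1 ⇑CuspForm.discriminant) *
          𝕢 1 ↑(tri a d b ha hd • τ) ^ i) := by
      funext n
      simp only [Function.comp_apply, triCoeff, if_pos (Dvd.intro n rfl),
        Nat.mul_div_cancel_left n ha2, smul_eq_mul]
      have h3 := qParam_tri (N := N) b ha hd had τ
      rw [CuspForm.coe_discriminant, h3, ← hω, mul_pow, ← pow_mul]
      ring
    rw [hfun]
    exact h2
  · intro m hm
    have : ¬ a ^ 2 ∣ m := by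
      rintro ⟨n, rfl⟩
      exact hm ⟨n, rfl⟩
    simp [triCoeff, if_neg this]

theorem mdiff_tri (a d : ℕ) (b : ℤ) (ha : a ≠ 0) (hd : d ≠ 0) :
    MDiff (ModularForm.discriminant ∣[(12 : ℤ)] tri a d b ha hd) :=
  (ModularFormClass.holo CuspForm.discriminant).slash 12 _

theorem analyticAt_tri {N a d : ℕ} (hN : N ≠ 0) (b : ℤ) (ha : a ≠ 0) (hd : d ≠ 0)
    (had : a * d = N) :
    AnalyticAt ℂ (cuspFunction N (ModularForm.discriminant ∣[(12 : ℤ)] tri a d b ha hd)) 0 :=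
  analyticAt_of_hasSum (by exact_mod_cast Nat.pos_of_ne_zero hN) (mdiff_tri a d b ha hd)
    (hasSum_tri b ha hd had)

theorem qExpansion_tri {N a d : ℕ} (hN : N ≠ 0) (b : ℤ) (ha : a ≠ 0) (hd : d ≠ 0)
    (had : a * d = N) :
    qExpansion N (ModularForm.discriminant ∣[(12 : ℤ)] tri a d b ha hd) =
      PowerSeries.mk (triCoeff a d (Complex.exp (2 * Real.pi * Complex.I * b / d))) :=
  qExpansion_of_hasSum (by exact_mod_cast Nat.pos_of_ne_zero hN) (mdiff_tri a d b ha hd)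
    (hasSum_tri b ha hd had)

end Fermat.Agent.S22
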