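import Mathlib

set_option autoImplicit false

namespace Fermat.Agent.S22

open UpperHalfPlane ModularFormClass Function
open scoped MatrixGroups ModularForm Manifold

theorem cuspFunction_one (h : ℝ) : cuspFunction h (1 : ℍ → ℂ) = 1 := by
  ext q
  rcases eq_or_ne q 0 with rfl | hq
  · simpa [cuspFunction, Periodic.cuspFunction] using! tendsto_const_nhds.limUnder_eq
  · simp [cuspFunction, Periodic.cuspFunction_eq_of_nonzero h _ hq]

/-- functions on `ℍ` whose cusp function (for the period `h`) is analytic at `0`. -/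
noncomputable def goodAlg (h : ℝ) : Subalgebra ℂ (ℍ → ℂ) where
  carrier := {F | AnalyticAt ℂ (cuspFunction h F) 0}
  mul_mem' := by
    intro F G hF hG
    show AnalyticAt ℂ (cuspFunction h (F * G)) 0
    rw [cuspFunction_mul hF.continuousAt hG.continuousAt]
    exact hF.mul hG
  add_mem' := by
    intro F G hF hG
    show AnalyticAt ℂ (cuspFunction h (F + G)) 0
    rw [cuspFunction_add hF.continuousAt hG.continuousAt]
    exact hF.add hG
  algebraMap_mem' := by
    intro c
    show AnalyticAt ℂ (cuspFunction h (algebraMap ℂ (ℍ → ℂ) c)) 0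
    have h1 : AnalyticAt ℂ (cuspFunction h (1 : ℍ → ℂ)) 0 := by
      rw [cuspFunction_one]; exact analyticAt_const
    have : algebraMap ℂ (ℍ → ℂ) c = c • (1 : ℍ → ℂ) := by
      rw [Algebra.algebraMap_eq_smul_one]
    rw [this, cuspFunction_smul h1.continuousAt]
    exact h1.const_smul

theorem mem_goodAlg {h : ℝ} {F : ℍ → ℂ} :
    F ∈ goodAlg h ↔ AnalyticAt ℂ (cuspFunction h F) 0 := Iff.rfl

/-- `q`-expansion as an algebra homomorphism. -/
noncomputable def qExpHom (h : ℝ) : goodAlg h →ₐ[ℂ] PowerSeries ℂ where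
  toFun F := qExpansion h F.1
  map_one' := qExpansion_one h
  map_mul' F G := qExpansion_mul F.2 G.2
  map_zero' := qExpansion_zero h
  map_add' F G := qExpansion_add F.2 G.2
  commutes' c := by
    have h1 : AnalyticAt ℂ (cuspFunction h (1 : ℍ → ℂ)) 0 := by
      rw [cuspFunction_one]; exact analyticAt_const
    show qExpansion h (algebraMap ℂ (ℍ → ℂ) c) = _
    rw [Algebra.algebraMap_eq_smul_one, qExpansion_smul h1, qExpansion_one,
      Algebra.algebraMap_eq_smul_one]

@[simp] theorem qExpHom_apply (h : ℝ) (F : goodAlg h) : qExpHom h F = qExpansion h F.1 := rfl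

end Fermat.Agent.S22
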