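import Mathlib
import Fermat.Agent.S22.Translate

set_option autoImplicit false

namespace Fermat.Agent.S22

open UpperHalfPlane ModularFormClass Function ModularForm Matrix.SpecialLinearGroup
open scoped MatrixGroups ModularForm Manifold Pointwise

/-- Lagrange/Vandermonde type identity. -/
theorem lagrange_identity {R ι : Type*} [CommRing R] [Fintype ι] [DecidableEq ι] (q₀ : ι)
    (x y : ι → R) :
    y q₀ * ∏ c ∈ Finset.univ.erase q₀, (x q₀ - x c) =
      ∑ t ∈ (Finset.univ.erase q₀).powerset,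
        (∏ i ∈ t, (- x i)) * ∑ q, y q * x q ^ ((Finset.univ.erase q₀) \ t).card := by
  set s := Finset.univ.erase q₀ with hs
  have h1 : ∀ q, ∏ c ∈ s, (x q - x c)
      = ∑ t ∈ s.powerset, (∏ i ∈ t, (- x i)) * x q ^ (s \ t).card := by
    intro q
    have := Finset.prod_add (fun i => - x i) (fun _ => x q) s
    simp only [Finset.prod_const] at this
    rw [← this]
    apply Finset.prod_congr rfl
    intros
    ring
  have h2 : ∑ q, y q * ∏ c ∈ s, (x q - x c) = y q₀ * ∏ c ∈ s, (x q₀ - x c) := by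
    apply Finset.sum_eq_single q₀
    · intro q _ hq
      rw [Finset.prod_eq_zero (i := q) (by simp [hs, hq]) (sub_self _), mul_zero]
    · simp
  rw [← h2]
  simp_rw [h1, Finset.mul_sum]
  rw [Finset.sum_comm]
  apply Finset.sum_congr rfl
  intro t _
  apply Finset.sum_congr rfl
  intro q _
  ring

theorem pow_slash_SL2 (w : ℤ) (A : SL(2, ℤ)) (u : ℍ → ℂ) (m : ℕ) :
    (u ^ m) ∣[(m : ℤ) * w] A = (u ∣[w] A) ^ m := by
  induction m with
  | zero =>
    simp only [pow_zero, Nat.cast_zero, zero_mul]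
    exact is_invariant_one A
  | succ m ih =>
    have : ((m + 1 : ℕ) : ℤ) * w = (m : ℤ) * w + w := by push_cast; ring
    rw [this, pow_succ, mul_slash_SL2, ih, pow_succ]

variable {N : ℕ} [NeZero N] {k : ℤ}

/-- `f * h ^ m`. -/
noncomputable def mulPow (f : CuspForm (CongruenceSubgroup.Gamma0 N) k)
    (h : ModularForm (CongruenceSubgroup.Gamma0 N) 12) (m : ℕ) :
    CuspForm (CongruenceSubgroup.Gamma0 N) (k + m * 12) :=
  f.mulModularForm (h.pow m)

theorem coe_mulPow (f : CuspForm (CongruenceSubgroup.Gamma0 N) k)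
    (h : ModularForm (CongruenceSubgroup.Gamma0 N) 12) (m : ℕ) :
    ⇑(mulPow f h m) = ⇑f * (⇑h) ^ m := by
  simp [mulPow, CuspForm.coe_mulModularForm]

theorem quotientFunc_mulPow (f : CuspForm (CongruenceSubgroup.Gamma0 N) k)
    (h : ModularForm (CongruenceSubgroup.Gamma0 N) 12) (m : ℕ)
    (q : 𝒮ℒ ⧸ ((CongruenceSubgroup.Gamma0 N : Subgroup (GL (Fin 2) ℝ)).subgroupOf 𝒮ℒ)) :
    SlashInvariantForm.quotientFunc (mulPow f h m) q =
      SlashInvariantForm.quotientFunc f q * (SlashInvariantForm.quotientFunc h q) ^ m := by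
  induction q using Quotient.inductionOn with
  | h r =>
    simp only [SlashInvariantForm.quotientFunc_mk]
    obtain ⟨A, hA⟩ : ∃ A : SL(2, ℤ), mapGL ℝ A = r.val⁻¹ := inv_mem r.2
    rw [← hA, coe_mulPow]
    exact (mul_slash_SL2 k (m * 12) A _ _).trans (by rw [pow_slash_SL2]; rfl)

/-- The main identity. -/
theorem main_identity [DecidableEq
      (𝒮ℒ ⧸ ((CongruenceSubgroup.Gamma0 N : Subgroup (GL (Fin 2) ℝ)).subgroupOf 𝒮ℒ))]
    [Fintype (𝒮ℒ ⧸ ((CongruenceSubgroup.Gamma0 N : Subgroup (GL (Fin 2) ℝ)).subgroupOf 𝒮ℒ))]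
    (f : CuspForm (CongruenceSubgroup.Gamma0 N) k)
    (h : ModularForm (CongruenceSubgroup.Gamma0 N) 12) :
    ⇑f * ∏ c ∈ Finset.univ.erase
        (⟦1⟧ : 𝒮ℒ ⧸ ((CongruenceSubgroup.Gamma0 N : Subgroup (GL (Fin 2) ℝ)).subgroupOf 𝒮ℒ)),
          (⇑h - SlashInvariantForm.quotientFunc h c) =
      ∑ t ∈ (Finset.univ.erase
        (⟦1⟧ : 𝒮ℒ ⧸ ((CongruenceSubgroup.Gamma0 N : Subgroup (GL (Fin 2) ℝ)).subgroupOf 𝒮ℒ))).powerset,
        (∏ i ∈ t, (- SlashInvariantForm.quotientFunc h i)) *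
          ⇑(ModularForm.trace 𝒮ℒ (mulPow f h ((Finset.univ.erase
        (⟦1⟧ : 𝒮ℒ ⧸ ((CongruenceSubgroup.Gamma0 N : Subgroup (GL (Fin 2) ℝ)).subgroupOf 𝒮ℒ))) \ t).card)) := by
  have key := lagrange_identity (R := ℍ → ℂ)
    (⟦1⟧ : 𝒮ℒ ⧸ ((CongruenceSubgroup.Gamma0 N : Subgroup (GL (Fin 2) ℝ)).subgroupOf 𝒮ℒ))
    (fun q => SlashInvariantForm.quotientFunc h q) (fun q => SlashInvariantForm.quotientFunc f q)
  have hf1 : SlashInvariantForm.quotientFunc f
      (⟦1⟧ : 𝒮ℒ ⧸ ((CongruenceSubgroup.Gamma0 N : Subgroup (GL (Fin 2) ℝ)).subgroupOf 𝒮ℒ)) = ⇑f := by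
    simp
  have hh1 : SlashInvariantForm.quotientFunc h
      (⟦1⟧ : 𝒮ℒ ⧸ ((CongruenceSubgroup.Gamma0 N : Subgroup (GL (Fin 2) ℝ)).subgroupOf 𝒮ℒ)) = ⇑h := by
    simp
  simp only [hf1, hh1] at key
  rw [key]
  apply Finset.sum_congr rfl
  intro t _
  congr 1
  rw [ModularForm.coe_trace]
  simp only [quotientFunc_mulPow]
  apply Finset.sum_congr _ (fun _ _ => rfl)
  ext; simp

end Fermat.Agent.S22
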