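import Mathlib
import Fermat.Agent.S22.Translate

set_option autoImplicit false

namespace Fermat.Agent.S22

open UpperHalfPlane ModularFormClass Function ModularForm Matrix.SpecialLinearGroup
open scoped MatrixGroups ModularForm Manifold Pointwise

/-- the ring generated by the `N`-th roots of unity. -/
noncomputable def cycRing (N : ℕ) : Subalgebra ℤ ℂ := Algebra.adjoin ℤ {ω : ℂ | ω ^ N = 1}

theorem cycRing_fg (N : ℕ) (hN : N ≠ 0) : (Subalgebra.toSubmodule (cycRing N)).FG := by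
  apply fg_adjoin_of_finite
  · have : {ω : ℂ | ω ^ N = 1} = ↑(Polynomial.nthRootsFinset N (1 : ℂ)) := by
      ext x
      simp [Polynomial.mem_nthRootsFinset (Nat.pos_of_ne_zero hN)]
    rw [this]
    exact Finset.finite_toSet _
  · intro x hx
    refine ⟨Polynomial.X ^ N - 1, Polynomial.monic_X_pow_sub_C 1 hN, ?_⟩
    have hx' : x ^ N = 1 := hx
    simp [hx']

/-- coefficient embedding of power series. -/
noncomputable def phi (N : ℕ) : PowerSeries (cycRing N) →+* PowerSeries ℂ :=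
  PowerSeries.map (algebraMap (cycRing N) ℂ)

theorem coeff_phi (N : ℕ) (x : PowerSeries (cycRing N)) (m : ℕ) :
    (phi N x).coeff m = ((x.coeff m : cycRing N) : ℂ) := by
  simp [phi, PowerSeries.coeff_map]

/-- integral model of the translate. -/
noncomputable def triInt (N : ℕ) (P : PowerSeries ℤ) (a : ℕ) (ω : cycRing N) :
    PowerSeries (cycRing N) :=
  PowerSeries.mk fun m => if a ^ 2 ∣ m then ((P.coeff (m / a ^ 2) : ℤ) : cycRing N) * ω ^ (m / a ^ 2)
    else 0

theorem mk_triCoeff (N : ℕ) {P : PowerSeries ℤ}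
    (hP : qExpansion 1 ModularForm.discriminant = PowerSeries.map (Int.castRingHom ℂ) P)
    (a d : ℕ) (ω : cycRing N) :
    PowerSeries.mk (triCoeff a d (ω : ℂ)) = triConst a d • phi N (triInt N P a ω) := by
  ext m
  rw [PowerSeries.coeff_mk, PowerSeries.coeff_smul, coeff_phi, triInt, PowerSeries.coeff_mk,
    triCoeff, hP]
  split_ifs
  · simp
  · simp

theorem triInt_coeff_of_lt (N : ℕ) {P : PowerSeries ℤ} (hP0 : P.coeff 0 = 0) (a : ℕ)
    (ω : cycRing N) {m : ℕ} (hm : m < a ^ 2) : (triInt N P a ω).coeff m = 0 := by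
  rw [triInt, PowerSeries.coeff_mk]
  split_ifs with h
  · have : m = 0 := Nat.eq_zero_of_dvd_of_lt h hm
    subst this
    simp [hP0]
  · rfl

theorem triInt_coeff_sq (N : ℕ) {P : PowerSeries ℤ} (hP1 : P.coeff 1 = 1) {a : ℕ} (ha : a ≠ 0)
    (ω : cycRing N) : (triInt N P a ω).coeff (a ^ 2) = ω := by
  have ha2 : 0 < a ^ 2 := by positivity
  rw [triInt, PowerSeries.coeff_mk, if_pos dvd_rfl, Nat.div_self ha2, hP1]
  simp

theorem triConst_mul {N a d : ℕ} (ha : a ≠ 0) (hd : d ≠ 0) (had : a * d = N) :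
    triConst N 1 = triConst a d * (d : ℂ) ^ 12 := by
  have hd' : (d : ℂ) ≠ 0 := by exact_mod_cast hd
  have ha' : (a : ℂ) ≠ 0 := by exact_mod_cast ha
  unfold triConst
  rw [← had]
  push_cast
  have : (d : ℂ) ^ (-12 : ℤ) * (d : ℂ) ^ 12 = 1 := by
    rw [← zpow_natCast (d : ℂ) 12, ← zpow_add₀ hd']
    simp
  rw [mul_assoc _ ((d : ℂ) ^ (-12 : ℤ)), this]
  simp

/-- The key unit statement. -/
theorem exists_unit_factor (N : ℕ) {P : PowerSeries ℤ} (hP0 : P.coeff 0 = 0) (hP1 : P.coeff 1 = 1)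
    {a d : ℕ} (ha : a ≠ 0) (haN : a < N) (ω : cycRing N) (hω : IsUnit ω) :
    ∃ U : (PowerSeries (cycRing N))ˣ,
      triInt N P a ω - PowerSeries.C ((d : cycRing N) ^ 12) * triInt N P N 1
        = PowerSeries.X ^ (a ^ 2) * (U : PowerSeries (cycRing N)) := by
  set W := triInt N P a ω - PowerSeries.C ((d : cycRing N) ^ 12) * triInt N P N 1 with hW
  have hlt : a ^ 2 < N ^ 2 := Nat.pow_lt_pow_left haN (by norm_num)
  have hdvd : PowerSeries.X ^ (a ^ 2) ∣ W := by
    rw [PowerSeries.X_pow_dvd_iff]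
    intro m hm
    rw [hW, map_sub, PowerSeries.coeff_C_mul, triInt_coeff_of_lt N hP0 a ω hm,
      triInt_coeff_of_lt N hP0 N 1 (hm.trans hlt)]
    simp
  obtain ⟨U, hU⟩ := hdvd
  have hc : PowerSeries.constantCoeff U = ω := by
    have h1 : W.coeff (a ^ 2) = ω := by
      rw [hW, map_sub, PowerSeries.coeff_C_mul, triInt_coeff_sq N hP1 ha ω,
        triInt_coeff_of_lt N hP0 N 1 hlt]
      simp
    rw [hU, PowerSeries.coeff_X_pow_mul' , if_pos le_rfl, Nat.sub_self] at h1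
    simpa using h1
  have hUu : IsUnit U := by
    rw [PowerSeries.isUnit_iff_constantCoeff, hc]
    exact hω
  exact ⟨hUu.unit, by rw [hU]; rfl⟩

/-- integrality data for the discriminant. -/
structure DeltaInt (P : PowerSeries ℤ) : Prop where
  eq : qExpansion 1 ModularForm.discriminant = PowerSeries.map (Int.castRingHom ℂ) P
  c0 : P.coeff 0 = 0
  c1 : P.coeff 1 = 1

theorem hForm_qExpansion {N : ℕ} (hN : N ≠ 0) {P : PowerSeries ℤ} (hP : DeltaInt P) :
    qExpansion N (hForm N hN) = triConst N 1 • phi N (triInt N P N 1) := by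
  rw [coe_hForm, qExpansion_tri hN 0 hN one_ne_zero (mul_one N), ← mk_triCoeff N hP.eq]
  simp

theorem hForm_analyticAt {N : ℕ} (hN : N ≠ 0) :
    AnalyticAt ℂ (cuspFunction N (hForm N hN)) 0 := by
  rw [coe_hForm]
  exact analyticAt_tri hN 0 hN one_ne_zero (mul_one N)

theorem translate_data {N : ℕ} (hN : N ≠ 0) {P : PowerSeries ℤ} (hP : DeltaInt P) (γ : SL(2, ℤ)) :
    AnalyticAt ℂ (cuspFunction N (⇑(hForm N hN) ∣[(12 : ℤ)] (mapGL ℝ γ))) 0 ∧
    (∃ (C : ℂ) (x : PowerSeries (cycRing N)),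
      qExpansion N (⇑(hForm N hN) ∣[(12 : ℤ)] (mapGL ℝ γ)) = C • phi N x) ∧
    (γ ∉ CongruenceSubgroup.Gamma0 N → ∃ (C : ℂ) (e : ℕ) (U : (PowerSeries (cycRing N))ˣ), C ≠ 0 ∧
      qExpansion N (hForm N hN) - qExpansion N (⇑(hForm N hN) ∣[(12 : ℤ)] (mapGL ℝ γ))
        = C • phi N (PowerSeries.X ^ e * (U : PowerSeries (cycRing N)))) := by
  obtain ⟨a, d, b, ha, hd, had, heq, hmem⟩ := hForm_slash N hN γ
  have hω1 := exp_pow_eq_one (N := N) (a := a) b hd had
  set ω : ℂ := Complex.exp (2 * Real.pi * Complex.I * b / d) with hω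
  let ω' : cycRing N := ⟨ω, Algebra.subset_adjoin hω1⟩
  have hω'u : IsUnit ω' := by
    refine IsUnit.of_mul_eq_one (ω' ^ (N - 1)) ?_
    rw [← pow_succ', Nat.sub_add_cancel (Nat.pos_of_ne_zero hN)]
    exact Subtype.ext hω1
  have hq : qExpansion N (⇑(hForm N hN) ∣[(12 : ℤ)] (mapGL ℝ γ))
      = triConst a d • phi N (triInt N P a ω') := by
    rw [heq, qExpansion_tri hN b ha hd had, ← mk_triCoeff N hP.eq]
  refine ⟨?_, ⟨_, _, hq⟩, fun hγ => ?_⟩
  · rw [heq]
    exact analyticAt_tri hN b ha hd had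
  · have haN : a < N := by
      refine lt_of_le_of_ne (Nat.le_of_dvd (Nat.pos_of_ne_zero hN) (Dvd.intro d had)) ?_
      intro h
      exact hγ (hmem h)
    obtain ⟨U, hU⟩ := exists_unit_factor N hP.c0 hP.c1 (d := d) ha haN ω' hω'u
    refine ⟨-triConst a d, a ^ 2, U, neg_ne_zero.mpr (triConst_ne_zero ha hd), ?_⟩
    rw [← hU, hq, hForm_qExpansion hN hP, triConst_mul ha hd had, map_sub, map_mul]
    have : phi N (PowerSeries.C ((d : cycRing N) ^ 12)) = PowerSeries.C ((d : ℂ) ^ 12) := by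
      simp [phi]
    rw [this, ← PowerSeries.smul_eq_C_mul]
    ext m
    simp only [map_sub, PowerSeries.coeff_smul, smul_eq_mul]
    ring

end Fermat.Agent.S22
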