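import Mathlib

set_option autoImplicit false

namespace Fermat.Agent.S22

open UpperHalfPlane ModularForm ModularFormClass EisensteinSeries
open scoped MatrixGroups ArithmeticFunction.sigma

noncomputable section

/-- `∑ σ_k(n) q^n` as an integral power series. -/
def sigmaSeries (k : ℕ) : PowerSeries ℤ := PowerSeries.mk fun n => (σ k n : ℤ)

theorem twelve_dvd_aux (d : ℕ) : (12 : ℤ) ∣ 5 * (d : ℤ) ^ 3 + 7 * (d : ℤ) ^ 5 := by
  have h : ∀ x : ZMod 12, 5 * x ^ 3 + 7 * x ^ 5 = 0 := by decide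
  have := h (d : ZMod 12)
  apply (ZMod.intCast_zmod_eq_zero_iff_dvd _ 12).mp
  push_cast
  exact this

theorem twelve_dvd_sigma (n : ℕ) : (12 : ℤ) ∣ 5 * (σ 3 n : ℤ) + 7 * (σ 5 n : ℤ) := by
  rw [ArithmeticFunction.sigma_apply, ArithmeticFunction.sigma_apply]
  push_cast
  rw [Finset.mul_sum, Finset.mul_sum, ← Finset.sum_add_distrib]
  exact Finset.dvd_sum fun d _ => twelve_dvd_aux d

local notation "ι" => PowerSeries.map (Int.castRingHom ℂ)

theorem E4_qExpansion : qExpansion 1 E₄ = ι (1 + PowerSeries.C 240 * sigmaSeries 3) := by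
  ext m
  rw [E_qExpansion_coeff _ ⟨2, rfl⟩, show bernoulli 4 = -1 / 30 by decide +kernel]
  rw [PowerSeries.coeff_map, map_add, PowerSeries.coeff_C_mul, PowerSeries.coeff_one]
  rcases eq_or_ne m 0 with rfl | hm
  · simp [sigmaSeries]
  · simp [sigmaSeries, hm]
    norm_num

theorem E6_qExpansion : qExpansion 1 E₆ = ι (1 - PowerSeries.C 504 * sigmaSeries 5) := by
  ext m
  rw [E_qExpansion_coeff _ ⟨3, rfl⟩, show bernoulli 6 = 1 / 42 by decide +kernel]
  rw [PowerSeries.coeff_map, map_sub, PowerSeries.coeff_C_mul, PowerSeries.coeff_one]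
  rcases eq_or_ne m 0 with rfl | hm
  · simp [sigmaSeries]
  · simp [sigmaSeries, hm]
    norm_num

/-- the series `(5 σ₃ + 7 σ₅)/12`. -/
def cSeries : PowerSeries ℤ := PowerSeries.mk fun n => (5 * (σ 3 n : ℤ) + 7 * (σ 5 n : ℤ)) / 12

theorem twelve_cSeries : PowerSeries.C 12 * cSeries =
    PowerSeries.C 5 * sigmaSeries 3 + PowerSeries.C 7 * sigmaSeries 5 := by
  ext n
  simp only [cSeries, sigmaSeries, PowerSeries.coeff_C_mul, PowerSeries.coeff_mk, map_add]
  exact Int.mul_ediv_cancel' (twelve_dvd_sigma n)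

/-- the integral `q`-expansion of `Δ`. -/
def deltaSeries : PowerSeries ℤ :=
  cSeries + 100 * sigmaSeries 3 ^ 2 + 8000 * sigmaSeries 3 ^ 3 - 147 * sigmaSeries 5 ^ 2

theorem deltaSeries_identity :
    (1 + PowerSeries.C 240 * sigmaSeries 3) ^ 3 - (1 - PowerSeries.C 504 * sigmaSeries 5) ^ 2
      = PowerSeries.C 1728 * deltaSeries := by
  have h := twelve_cSeries
  simp only [map_ofNat] at h ⊢
  unfold deltaSeries
  linear_combination (-144 : PowerSeries ℤ) * h

theorem discriminant_qExpansion_eq :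
    qExpansion 1 ModularForm.discriminant = ι deltaSeries := by
  let F : ModularForm 𝒮ℒ 12 :=
    ModularForm.mcast (by decide) (E₄.pow 3) - ModularForm.mcast (by decide) (E₆.pow 2)
  have hF : qExpansion 1 F = qExpansion 1 E₄ ^ 3 - qExpansion 1 E₆ ^ 2 := by
    simp only [F, FunLike.coe_sub, coe_mcast,
      ModularForm.qExpansion_sub one_pos one_mem_strictPeriods_SL,
      ModularForm.qExpansion_pow one_pos one_mem_strictPeriods_SL]
  have hFΔ : (F : ℍ → ℂ) = ((1728 : ℂ) • CuspForm.discriminant : CuspForm 𝒮ℒ 12) := by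
    funext z
    have := discriminant_eq_E₄_cube_sub_E₆_sq z
    simp only [F, coe_mcast, coe_pow, sub_apply, Pi.pow_apply]
    show _ = (1728 : ℂ) * ModularForm.discriminant z
    rw [this]; ring
  have h2 : qExpansion 1 F = (1728 : ℂ) • qExpansion 1 ModularForm.discriminant := by
    rw [hFΔ, FunLike.coe_smul,
      ModularForm.qExpansion_smul one_pos one_mem_strictPeriods_SL 1728 CuspForm.discriminant]
    rfl
  have h3 : (1728 : ℂ) • qExpansion 1 ModularForm.discriminant = (1728 : ℂ) • ι deltaSeries := by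
    rw [← h2, hF, E4_qExpansion, E6_qExpansion, ← map_pow, ← map_pow, ← map_sub,
      deltaSeries_identity, map_mul, PowerSeries.map_C, PowerSeries.smul_eq_C_mul]
    simp
  exact smul_right_injective _ (by norm_num : (1728 : ℂ) ≠ 0) h3

theorem discriminant_qExpansion_int : ∃ P : PowerSeries ℤ,
    qExpansion 1 ModularForm.discriminant = PowerSeries.map (Int.castRingHom ℂ) P ∧
      P.coeff 0 = 0 ∧ P.coeff 1 = 1 := by
  refine ⟨deltaSeries, discriminant_qExpansion_eq, ?_, ?_⟩
  · have h : (qExpansion 1 ModularForm.discriminant).coeff 0 = 0 := by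
      simpa using CuspFormClass.qExpansion_coeff_zero CuspForm.discriminant one_pos
        one_mem_strictPeriods_SL
    rw [discriminant_qExpansion_eq, PowerSeries.coeff_map, eq_intCast] at h
    exact_mod_cast h
  · have h := discriminant_qExpansion_coeff_one
    rw [discriminant_qExpansion_eq, PowerSeries.coeff_map, eq_intCast] at h
    exact_mod_cast h

/-- the statement to be proved by induction on the weight. -/
def SpanProp (k : ℤ) : Prop :=
  ∃ (n : ℕ) (G : Fin n → PowerSeries ℤ), ∀ F : ModularForm 𝒮ℒ k, ∃ c : Fin n → ℂ,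
    qExpansion 1 F = ∑ i, c i • PowerSeries.map (Int.castRingHom ℂ) (G i)

theorem spanProp_of_forall_zero {k : ℤ} (h : ∀ F : ModularForm 𝒮ℒ k, F = 0) : SpanProp k := by
  refine ⟨0, Fin.elim0, fun F => ⟨Fin.elim0, ?_⟩⟩
  rw [h F]
  simp [qExpansion_zero]

theorem spanProp_neg {k : ℤ} (hk : k < 0) : SpanProp k :=
  spanProp_of_forall_zero (rank_zero_iff_forall_zero.mp (levelOne_neg_weight_rank_zero hk))

theorem spanProp_odd {k : ℤ} (hk : Odd k) : SpanProp k :=
  spanProp_of_forall_zero (levelOne_odd_weight_eq_zero hk)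

theorem spanProp_two : SpanProp 2 :=
  spanProp_of_forall_zero (rank_zero_iff_forall_zero.mp levelOne_weight_two_rank_zero)

theorem spanProp_zero : SpanProp 0 := by
  refine ⟨1, fun _ => 1, fun F => ?_⟩
  obtain ⟨c, hc⟩ := levelOne_weight_zero_const F
  refine ⟨fun _ => c, ?_⟩
  have : (F : ℍ → ℂ) = c • ((1 : ModularForm 𝒮ℒ 0) : ℍ → ℂ) := by
    rw [hc]; funext z; simp
  rw [this, ModularForm.qExpansion_smul one_pos one_mem_strictPeriods_SL c (1 : ModularForm 𝒮ℒ 0),
    ModularForm.qExpansion_one]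
  simp

/-- an integral multiple of the Eisenstein series. -/
theorem exists_int_E {k : ℕ} (hk : 3 ≤ k) (hk2 : Even k) :
    ∃ (b : ℂ) (G : PowerSeries ℤ), qExpansion 1 (E hk) = b • ι G := by
  set r : ℚ := -(2 * k / bernoulli k) with hr
  refine ⟨(r.den : ℂ)⁻¹, PowerSeries.mk fun m => if m = 0 then (r.den : ℤ) else r.num * σ (k - 1) m,
    ?_⟩
  have hden : (r.den : ℂ) ≠ 0 := by exact_mod_cast r.den_nz
  ext m
  rw [E_qExpansion_coeff hk hk2, PowerSeries.coeff_smul, PowerSeries.coeff_map,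
    PowerSeries.coeff_mk, eq_intCast]
  have hrc : (-(2 * k / bernoulli k : ℂ)) = (r : ℂ) := by
    rw [hr]; push_cast; ring
  rw [hrc]
  split_ifs with hm
  · simp [hden]
  · have : (r : ℂ) = (r.num : ℂ) / (r.den : ℂ) := by
      exact_mod_cast (Rat.num_div_den r).symm
    rw [this]
    push_cast
    rw [smul_eq_mul]
    field_simp

theorem spanProp_step {k : ℕ} (hk : 3 ≤ k) (hk2 : Even k) (ih : SpanProp ((k : ℤ) - 12)) :
    SpanProp k := by
  obtain ⟨n, G, hG⟩ := ih
  obtain ⟨b, G0, hG0⟩ := exists_int_E hk hk2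
  refine ⟨n + 1, Fin.cons G0 (fun i => deltaSeries * G i), fun F => ?_⟩
  set c0 : ℂ := (qExpansion 1 F).coeff 0 with hc0
  set F1 : ModularForm 𝒮ℒ k := F - c0 • E hk with hF1
  have hq1 : qExpansion 1 F1 = qExpansion 1 F - c0 • qExpansion 1 (E hk) := by
    rw [hF1, FunLike.coe_sub, ModularForm.qExpansion_sub one_pos one_mem_strictPeriods_SL,
      FunLike.coe_smul, ModularForm.qExpansion_smul one_pos one_mem_strictPeriods_SL]
  have hcusp : (qExpansion 1 F1).coeff 0 = 0 := by
    rw [hq1, map_sub, PowerSeries.coeff_smul, E_qExpansion_coeff_zero hk hk2]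
    simp [hc0]
  have h2 := qExpansion_eq_qExpansion_discriminant_mul F1 hcusp
  obtain ⟨c, hc⟩ := hG (CuspForm.discriminantEquiv (toCuspForm F1 hcusp))
  refine ⟨Fin.cons (c0 * b) c, ?_⟩
  rw [Fin.sum_univ_succ]
  simp only [Fin.cons_zero, Fin.cons_succ]
  have h3 : qExpansion 1 F = c0 • qExpansion 1 (E hk) + qExpansion 1 F1 := by
    rw [hq1]; ring
  rw [h3, h2, hc, hG0, discriminant_qExpansion_eq, smul_smul, Finset.mul_sum]
  congr 1
  refine Finset.sum_congr rfl fun i _ => ?_
  rw [map_mul, mul_smul_comm]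

theorem spanProp_nat (k : ℕ) : SpanProp k := by
  induction k using Nat.strong_induction_on with | _ k ih =>
  rcases Nat.even_or_odd k with hk2 | hk2
  · rcases lt_or_ge k 3 with hk | hk
    · interval_cases k
      · exact spanProp_zero
      · exact absurd hk2 (by decide)
      · exact spanProp_two
    · apply spanProp_step hk hk2
      rcases lt_or_ge k 12 with h12 | h12
      · exact spanProp_neg (by omega)
      · have := ih (k - 12) (by omega)
        rwa [show ((k - 12 : ℕ) : ℤ) = (k : ℤ) - 12 by omega] at this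
  · exact spanProp_odd (by exact_mod_cast hk2)

theorem levelOne_qExpansion_span (k : ℤ) : ∃ (n : ℕ) (G : Fin n → PowerSeries ℤ),
    ∀ F : ModularForm 𝒮ℒ k, ∃ c : Fin n → ℂ,
      qExpansion 1 F = ∑ i, c i • PowerSeries.map (Int.castRingHom ℂ) (G i) := by
  rcases lt_or_ge k 0 with hk | hk
  · exact spanProp_neg hk
  · lift k to ℕ using hk
    exact spanProp_nat k

end

end Fermat.Agent.S22
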