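import Mathlib
import Fermat.Prelude.Thm_UpperHalfPlane_qExpansion_coeff_nat_mul
import Fermat.Prelude.Thm_CongruenceSubgroup_one_mem_strictPeriods_Gamma0
import Fermat.Prelude.Def_FLTPrelim_Modularity
import Fermat.Agent.S22.Integral
import Fermat.Agent.S22.Identity
import Fermat.Agent.S22.Good
import Fermat.Agent.S22.LevelOne

set_option autoImplicit false

namespace Fermat.Agent.S22

open UpperHalfPlane ModularFormClass Function ModularForm Matrix.SpecialLinearGroup
open scoped MatrixGroups ModularForm Manifold Pointwise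

/-- up to a scalar, integral. -/
def IsInt (N : ℕ) (p : PowerSeries ℂ) : Prop :=
  ∃ (C : ℂ) (x : PowerSeries (cycRing N)), p = PowerSeries.C C * phi N x

/-- up to a nonzero scalar, a power of the variable times an integral unit. -/
def IsMono (N : ℕ) (p : PowerSeries ℂ) : Prop :=
  ∃ (C : ℂ) (e : ℕ) (U : (PowerSeries (cycRing N))ˣ), C ≠ 0 ∧
    p = PowerSeries.C C * phi N (PowerSeries.X ^ e * (U : PowerSeries (cycRing N)))

theorem IsInt.one (N : ℕ) : IsInt N 1 := ⟨1, 1, by simp⟩

theorem IsInt.mul {N : ℕ} {p q : PowerSeries ℂ} (hp : IsInt N p) (hq : IsInt N q) :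
    IsInt N (p * q) := by
  obtain ⟨C, x, rfl⟩ := hp
  obtain ⟨D, y, rfl⟩ := hq
  exact ⟨C * D, x * y, by rw [map_mul, map_mul]; ring⟩

theorem IsInt.neg {N : ℕ} {p : PowerSeries ℂ} (hp : IsInt N p) : IsInt N (-p) := by
  obtain ⟨C, x, rfl⟩ := hp
  exact ⟨-C, x, by rw [map_neg]; ring⟩

theorem IsMono.one (N : ℕ) : IsMono N 1 := ⟨1, 0, 1, one_ne_zero, by simp⟩

theorem IsMono.mul {N : ℕ} {p q : PowerSeries ℂ} (hp : IsMono N p) (hq : IsMono N q) :
    IsMono N (p * q) := by
  obtain ⟨C, e, U, hC, rfl⟩ := hp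
  obtain ⟨D, e', U', hD, rfl⟩ := hq
  refine ⟨C * D, e + e', U * U', mul_ne_zero hC hD, ?_⟩
  rw [map_mul PowerSeries.C, ← mul_mul_mul_comm, ← map_mul (phi N), Units.val_mul, pow_add]
  congr 2
  ring

/-- substitution `X ↦ X ^ N` on complex power series. -/
noncomputable def expandC (N : ℕ) : PowerSeries ℂ →ₗ[ℂ] PowerSeries ℂ where
  toFun p := PowerSeries.mk fun n => if N ∣ n then p.coeff (n / N) else 0
  map_add' p q := by
    ext n
    simp only [PowerSeries.coeff_mk, map_add]
    split_ifs <;> simp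
  map_smul' c p := by
    ext n
    simp only [PowerSeries.coeff_mk, PowerSeries.coeff_smul, RingHom.id_apply]
    split_ifs <;> simp

noncomputable def expandInt (N : ℕ) (G : PowerSeries ℤ) : PowerSeries (cycRing N) :=
  PowerSeries.mk fun n => if N ∣ n then ((G.coeff (n / N) : ℤ) : cycRing N) else 0

theorem expandC_map (N : ℕ) (G : PowerSeries ℤ) :
    expandC N (PowerSeries.map (Int.castRingHom ℂ) G) = phi N (expandInt N G) := by
  ext n
  rw [coeff_phi]
  simp only [expandC, expandInt, LinearMap.coe_mk, AddHom.coe_mk, PowerSeries.coeff_mk,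
    PowerSeries.coeff_map]
  split_ifs <;> simp

theorem qExpansion_nat_eq_expandC {N : ℕ} (hN : N ≠ 0) {Γ : Subgroup (GL (Fin 2) ℝ)} {k : ℤ}
    {F : Type*} [FunLike F ℍ ℂ] [ModularFormClass F Γ k] (f : F) (hΓ : (1 : ℝ) ∈ Γ.strictPeriods) :
    qExpansion N f = expandC N (qExpansion 1 f) := by
  have : Fact (IsCusp OnePoint.infty Γ) := ⟨Subgroup.isCusp_of_mem_strictPeriods one_pos hΓ⟩
  ext n
  have := UpperHalfPlane.qExpansion_coeff_nat_mul (h := 1) one_pos
    (SlashInvariantFormClass.periodic_comp_ofComplex f hΓ) (ModularFormClass.holo f)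
    (ModularFormClass.bdd_at_infty f) (Nat.pos_of_ne_zero hN) n
  rw [mul_one] at this
  rw [this]
  simp [expandC]

theorem natCast_mem_strictPeriods {Γ : Subgroup (GL (Fin 2) ℝ)} (hΓ : (1 : ℝ) ∈ Γ.strictPeriods)
    (N : ℕ) : (N : ℝ) ∈ Γ.strictPeriods := by
  have := Γ.strictPeriods.nsmul_mem hΓ N
  simpa using this

section main

variable {N : ℕ} [NeZero N]

/-- the coset space. -/
abbrev Quo (N : ℕ) : Type :=
  𝒮ℒ ⧸ ((CongruenceSubgroup.Gamma0 N : Subgroup (GL (Fin 2) ℝ)).subgroupOf 𝒮ℒ)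

theorem quotient_data {P : PowerSeries ℤ} (hP : DeltaInt P) (c : Quo N) :
    SlashInvariantForm.quotientFunc (hForm N (NeZero.ne N)) c ∈ goodAlg N ∧
    IsInt N (qExpansion N (SlashInvariantForm.quotientFunc (hForm N (NeZero.ne N)) c)) ∧
    (c ≠ ⟦1⟧ → IsMono N (qExpansion N (hForm N (NeZero.ne N)) -
      qExpansion N (SlashInvariantForm.quotientFunc (hForm N (NeZero.ne N)) c))) := by
  induction c using Quotient.inductionOn with
  | h r =>
    simp only [SlashInvariantForm.quotientFunc_mk]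
    obtain ⟨A, hA⟩ : ∃ A : SL(2, ℤ), mapGL ℝ A = r.val⁻¹ := inv_mem r.2
    rw [← hA]
    obtain ⟨h1, ⟨C, x, h2⟩, h3⟩ := translate_data (NeZero.ne N) hP A
    refine ⟨h1, ⟨C, x, by rw [h2, PowerSeries.smul_eq_C_mul]⟩, fun hne => ?_⟩
    have hA' : A ∉ CongruenceSubgroup.Gamma0 N := by
      intro hmem
      apply hne
      have : (⟦r⟧ : Quo N) = ((r : 𝒮ℒ) : Quo N) := rfl
      rw [this]
      have h1' : (⟦1⟧ : Quo N) = ((1 : 𝒮ℒ) : Quo N) := rfl
      rw [h1', QuotientGroup.eq, mul_one, Subgroup.mem_subgroupOf]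
      exact ⟨A, hmem, hA⟩
    obtain ⟨C', e, U, hC', h4⟩ := h3 hA'
    exact ⟨C', e, U, hC', by rw [h4, PowerSeries.smul_eq_C_mul]⟩

/-- extraction of the coefficients `m * N + e`. -/
noncomputable def extract (N e : ℕ) : PowerSeries ℂ →ₗ[ℂ] (ℕ → ℂ) where
  toFun p m := p.coeff (m * N + e)
  map_add' p q := by ext m; simp
  map_smul' c p := by ext m; simp

theorem span_data (N : ℕ) [NeZero N] (k : ℤ) :
    ∃ 𝒮 : Set (ℕ → ℂ), 𝒮.Finite ∧ (∀ g ∈ 𝒮, ∀ n, g n ∈ cycRing N) ∧
      ∀ f : CuspForm (CongruenceSubgroup.Gamma0 N) k,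
        (fun n => ModularFormClass.qCoeff f n) ∈ Submodule.span ℂ 𝒮 := by
  classical
  have hN := NeZero.ne N
  have hNpos : (0 : ℝ) < N := by exact_mod_cast Nat.pos_of_ne_zero hN
  obtain ⟨P, hP1, hP2, hP3⟩ := discriminant_qExpansion_int
  have hP : DeltaInt P := ⟨hP1, hP2, hP3⟩
  let _ : Fintype (Quo N) := Fintype.ofFinite _
  obtain ⟨h, hh⟩ : ∃ h, h = hForm N hN := ⟨_, rfl⟩
  obtain ⟨X, hX⟩ : ∃ X : Quo N → (ℍ → ℂ), X = fun c => SlashInvariantForm.quotientFunc h c :=
    ⟨_, rfl⟩
  obtain ⟨s, hs⟩ : ∃ s : Finset (Quo N), s = Finset.univ.erase (⟦1⟧ : Quo N) := ⟨_, rfl⟩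
  have hqd : ∀ c, X c ∈ goodAlg N ∧ IsInt N (qExpansion N (X c)) ∧
      (c ≠ ⟦1⟧ → IsMono N (qExpansion N h - qExpansion N (X c))) := by
    intro c
    rw [hX, hh]
    exact quotient_data hP c
  have hD : IsMono N (∏ c ∈ s, (qExpansion N h - qExpansion N (X c))) :=
    Finset.prod_induction _ (IsMono N) (fun _ _ => IsMono.mul) (IsMono.one N)
      (fun c hc => (hqd c).2.2 (Finset.ne_of_mem_erase (hs ▸ hc)))
  obtain ⟨C', e, U, hC', hDeq⟩ := hD
  have hK : ∀ t : Finset (Quo N), IsInt N (∏ i ∈ t, (- qExpansion N (X i))) := fun t =>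
    Finset.prod_induction _ (IsInt N) (fun _ _ => IsInt.mul) (IsInt.one N)
      (fun c _ => (hqd c).2.1.neg)
  choose K x hKx using hK
  choose n G hG using fun m : ℕ => levelOne_qExpansion_span (k + m * 12)
  let 𝒲 : Set (PowerSeries (cycRing N)) := ⋃ t ∈ s.powerset,
    Set.range (fun j : Fin (n (s \ t).card) =>
      ((U⁻¹ : (PowerSeries (cycRing N))ˣ) : PowerSeries (cycRing N)) * x t * expandInt N (G _ j))
  refine ⟨(fun w => extract N e (phi N w)) '' 𝒲, ?_, ?_, ?_⟩
  · apply Set.Finite.image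
    exact Set.Finite.biUnion (Finset.finite_toSet _) (fun _ _ => Set.finite_range _)
  · rintro _ ⟨w, -, rfl⟩ m
    show (phi N w).coeff _ ∈ _
    rw [coeff_phi]
    exact Subtype.property _
  · intro f
    have hΓ1 := CongruenceSubgroup.one_mem_strictPeriods_Gamma0 N
    have hfgood : ⇑f ∈ goodAlg N :=
      ModularFormClass.analyticAt_cuspFunction_zero f hNpos (natCast_mem_strictPeriods hΓ1 N)
    have hhgood : ⇑h ∈ goodAlg N := by rw [hh]; exact hForm_analyticAt hN
    have hTgood : ∀ m : ℕ, ⇑(ModularForm.trace 𝒮ℒ (mulPow f h m)) ∈ goodAlg N := fun m =>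
      ModularFormClass.analyticAt_cuspFunction_zero _ hNpos
        (natCast_mem_strictPeriods one_mem_strictPeriods_SL N)
    have hid := main_identity f h
    rw [← hs] at hid
    have key : (⟨f, hfgood⟩ : goodAlg N) * ∏ c ∈ s, ((⟨h, hhgood⟩ : goodAlg N) - ⟨X c, (hqd c).1⟩) =
        ∑ t ∈ s.powerset, (∏ i ∈ t, -(⟨X i, (hqd i).1⟩ : goodAlg N)) *
          ⟨ModularForm.trace 𝒮ℒ (mulPow f h (s \ t).card), hTgood _⟩ := by
      apply Subtype.ext
      push_cast
      rw [hX]
      exact hid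
    have key2 := congrArg (qExpHom N) key
    simp only [map_mul, map_prod, map_sum, map_sub, map_neg, qExpHom_apply] at key2
    rw [hDeq] at key2
    simp_rw [hKx] at key2
    -- the left hand side after inverting the unit
    have hUU : phi N (U : PowerSeries (cycRing N)) *
        phi N ((U⁻¹ : (PowerSeries (cycRing N))ˣ) : PowerSeries (cycRing N)) = 1 := by
      rw [← map_mul, Units.mul_inv, map_one]
    have hCC : PowerSeries.C C' * PowerSeries.C C'⁻¹ = (1 : PowerSeries ℂ) := by
      rw [← map_mul, mul_inv_cancel₀ hC', map_one]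
    have hphiX : phi N (PowerSeries.X ^ e) = PowerSeries.X ^ e := by
      simp [phi]
    have key3 : qExpansion N f * PowerSeries.X ^ e =
        ∑ t ∈ s.powerset, PowerSeries.C C'⁻¹ * (PowerSeries.C (K t) *
          (phi N (((U⁻¹ : (PowerSeries (cycRing N))ˣ) : PowerSeries (cycRing N)) * x t) *
          qExpansion N (ModularForm.trace 𝒮ℒ (mulPow f h (s \ t).card)))) := by
      have h1 : qExpansion N f * PowerSeries.X ^ e =
          (qExpansion N f * (PowerSeries.C C' *
            phi N (PowerSeries.X ^ e * (U : PowerSeries (cycRing N))))) *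
            (PowerSeries.C C'⁻¹ *
              phi N ((U⁻¹ : (PowerSeries (cycRing N))ˣ) : PowerSeries (cycRing N))) := by
        rw [map_mul (phi N), hphiX]
        calc qExpansion N f * PowerSeries.X ^ e
            = qExpansion N f * PowerSeries.X ^ e * (PowerSeries.C C' * PowerSeries.C C'⁻¹) *
              (phi N (U : PowerSeries (cycRing N)) *
                phi N ((U⁻¹ : (PowerSeries (cycRing N))ˣ) : PowerSeries (cycRing N))) := by
              rw [hUU, hCC, mul_one, mul_one]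
          _ = _ := by ring
      rw [h1, key2, Finset.sum_mul]
      apply Finset.sum_congr rfl
      intro t _
      rw [map_mul (phi N)]
      ring
    have hmem : qExpansion N f * PowerSeries.X ^ e ∈ Submodule.span ℂ (phi N '' 𝒲) := by
      rw [key3]
      apply Submodule.sum_mem
      intro t ht
      obtain ⟨c, hc⟩ := hG (s \ t).card (ModularForm.trace 𝒮ℒ (mulPow f h (s \ t).card))
      rw [qExpansion_nat_eq_expandC hN _ one_mem_strictPeriods_SL, hc, map_sum, Finset.mul_sum,
        Finset.mul_sum, Finset.mul_sum]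
      apply Submodule.sum_mem
      intro j _
      rw [map_smul, expandC_map]
      have : PowerSeries.C C'⁻¹ * (PowerSeries.C (K t) *
          (phi N (((U⁻¹ : (PowerSeries (cycRing N))ˣ) : PowerSeries (cycRing N)) * x t) *
            c j • phi N (expandInt N (G (s \ t).card j)))) =
          (C'⁻¹ * K t * c j) • phi N (((U⁻¹ : (PowerSeries (cycRing N))ˣ) :
            PowerSeries (cycRing N)) * x t * expandInt N (G (s \ t).card j)) := by
        rw [map_mul (phi N) (_ * _), PowerSeries.smul_eq_C_mul, PowerSeries.smul_eq_C_mul,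
          map_mul PowerSeries.C, map_mul PowerSeries.C]
        ring
      rw [this]
      apply Submodule.smul_mem
      apply Submodule.subset_span
      refine ⟨_, ?_, rfl⟩
      exact Set.mem_biUnion (show t ∈ (↑s.powerset : Set (Finset (Quo N))) from ht) ⟨j, rfl⟩
    have hfin : (fun n => qCoeff (⇑f) n) = extract N e (qExpansion N f * PowerSeries.X ^ e) := by
      funext m
      show _ = (qExpansion N f * PowerSeries.X ^ e).coeff (m * N + e)
      rw [PowerSeries.coeff_mul_X_pow, qExpansion_nat_eq_expandC hN f hΓ1]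
      simp only [expandC, LinearMap.coe_mk, AddHom.coe_mk, PowerSeries.coeff_mk]
      rw [if_pos (Dvd.intro_left m rfl), Nat.mul_div_cancel _ (Nat.pos_of_ne_zero hN)]
      rfl
    rw [hfin, ← Set.image_image (extract N e) (phi N) 𝒲]
    exact Submodule.apply_mem_span_image_of_mem_span _ hmem

end main

end Fermat.Agent.S22
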