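import Mathlib
import Fermat.Prelude.Def_CuspForm_HeckeAlgebra
import Fermat.Prelude.Thm_ModularForm_sturm_bound_Gamma0
import Fermat.Agent.Lib.QCoeff

set_option autoImplicit false

namespace Fermat.Agent.S22

open UpperHalfPlane ModularFormClass
open Fermat.Agent.Lib.QCoeff

noncomputable section

variable {N : ℕ} {k : ℤ}

/-- the `ℤ`-span of the coefficient functionals. -/
def coeffLattice (N : ℕ) (k : ℤ) :
    Submodule ℤ (Module.Dual ℂ (CuspForm (CongruenceSubgroup.Gamma0 N) k)) :=
  Submodule.span ℤ (Set.range (coeffLin N k))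

theorem coeffLin_mem (n : ℕ) : coeffLin N k n ∈ coeffLattice N k :=
  Submodule.subset_span ⟨n, rfl⟩

theorem comp_heckeTLin_mem (hk : 1 ≤ k) {p : ℕ} (hp : p.Prime) (hpN : ¬ p ∣ N) (n : ℕ) :
    (coeffLin N k n) ∘ₗ (CuspForm.heckeTLin k hp hpN) ∈ coeffLattice N k := by
  have key : (coeffLin N k n) ∘ₗ (CuspForm.heckeTLin k hp hpN) =
      coeffLin N k (n * p) + if p ∣ n then ((p : ℤ) ^ (k - 1).toNat) • coeffLin N k (n / p)
        else 0 := by
    ext f
    simp only [LinearMap.comp_apply, coeffLin_apply, LinearMap.add_apply]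
    rw [qCoeff_heckeTLin]
    congr 1
    split_ifs with h
    · rw [LinearMap.smul_apply, coeffLin_apply, zsmul_eq_mul]
      congr 1
      push_cast
      rw [← zpow_natCast, Int.toNat_of_nonneg (by omega)]
    · simp
  rw [key]
  refine Submodule.add_mem _ (coeffLin_mem _) ?_
  split_ifs
  · exact Submodule.smul_mem _ _ (coeffLin_mem _)
  · exact Submodule.zero_mem _

theorem comp_heckeULin_mem [NeZero N] {p : ℕ} (hpN : p ∣ N) (n : ℕ) :
    (coeffLin N k n) ∘ₗ (CuspForm.heckeULin k hpN) ∈ coeffLattice N k := by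
  have key : (coeffLin N k n) ∘ₗ (CuspForm.heckeULin k hpN) = coeffLin N k (n * p) := by
    ext f
    simp only [LinearMap.comp_apply, coeffLin_apply]
    rw [qCoeff_heckeULin]
  rw [key]
  exact coeffLin_mem _

theorem comp_mem_of_forall_coeffLin
    {t : Module.End ℂ (CuspForm (CongruenceSubgroup.Gamma0 N) k)}
    (h : ∀ n, (coeffLin N k n) ∘ₗ t ∈ coeffLattice N k)
    {l : Module.Dual ℂ (CuspForm (CongruenceSubgroup.Gamma0 N) k)} (hl : l ∈ coeffLattice N k) :
    l ∘ₗ t ∈ coeffLattice N k := by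
  unfold coeffLattice at hl
  induction hl using Submodule.span_induction with
  | mem x hx => obtain ⟨n, rfl⟩ := hx; exact h n
  | zero => simp
  | add x y _ _ hx hy => rw [LinearMap.add_comp]; exact Submodule.add_mem _ hx hy
  | smul c x _ hx => rw [LinearMap.smul_comp]; exact Submodule.smul_mem _ _ hx

theorem comp_mem [NeZero N] (hk : 1 ≤ k) {S : Set ℕ}
    {t : Module.End ℂ (CuspForm (CongruenceSubgroup.Gamma0 N) k)}
    (ht : t ∈ CuspForm.heckeAlgebra N k S)
    {l : Module.Dual ℂ (CuspForm (CongruenceSubgroup.Gamma0 N) k)} (hl : l ∈ coeffLattice N k) :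
    l ∘ₗ t ∈ coeffLattice N k := by
  unfold CuspForm.heckeAlgebra at ht
  induction ht using Algebra.adjoin_induction generalizing l with
  | mem x hx =>
    rcases hx with ⟨ℓ, hℓ, hℓN, -, rfl⟩ | ⟨q, hqN, -, -, rfl⟩
    · exact comp_mem_of_forall_coeffLin (comp_heckeTLin_mem hk hℓ hℓN) hl
    · exact comp_mem_of_forall_coeffLin (comp_heckeULin_mem hqN) hl
  | algebraMap r =>
    have : l ∘ₗ (algebraMap ℤ (Module.End ℂ (CuspForm (CongruenceSubgroup.Gamma0 N) k)) r)
        = r • l := by
      ext f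
      simp
    rw [this]
    exact Submodule.smul_mem _ _ hl
  | add x y _ _ hx hy =>
    rw [LinearMap.comp_add]; exact Submodule.add_mem _ (hx hl) (hy hl)
  | mul x y _ _ hx hy =>
    rw [Module.End.mul_eq_comp, ← LinearMap.comp_assoc]
    exact hy (hx hl)

/-- the action of the Hecke algebra on the lattice of coefficient functionals. -/
def latticeAction [NeZero N] (hk : 1 ≤ k) (S : Set ℕ) :
    CuspForm.heckeAlgebra N k S →ₗ[ℤ] (coeffLattice N k →ₗ[ℤ] coeffLattice N k) where
  toFun t :=
    { toFun := fun l => ⟨(l : Module.Dual ℂ _) ∘ₗ (t : Module.End ℂ _), comp_mem hk t.2 l.2⟩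
      map_add' := fun l l' => Subtype.ext (by simp [LinearMap.add_comp])
      map_smul' := fun c l => Subtype.ext (by simp [LinearMap.smul_comp]) }
  map_add' t t' := by
    ext l : 2
    simp [LinearMap.comp_add]
  map_smul' c t := by
    ext l : 2
    show (l : Module.Dual ℂ (CuspForm (CongruenceSubgroup.Gamma0 N) k)) ∘ₗ
      ((c • t : CuspForm.heckeAlgebra N k S) :
        Module.End ℂ (CuspForm (CongruenceSubgroup.Gamma0 N) k)) = _
    rw [Subalgebra.coe_smul, LinearMap.comp_smul]
    rfl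

theorem latticeAction_injective [NeZero N] (hk : 1 ≤ k) (S : Set ℕ) :
    Function.Injective (latticeAction (N := N) hk S) := by
  rw [injective_iff_map_eq_zero]
  intro t ht
  apply Subtype.ext
  ext1 f
  apply eq_zero_of_qCoeff
  intro n
  have := congrArg (fun φ => ((φ ⟨coeffLin N k n, coeffLin_mem n⟩ : coeffLattice N k) :
    Module.Dual ℂ _) f) ht
  simpa [latticeAction] using this

theorem moduleFinite_of_fg [NeZero N] (hk : 1 ≤ k) (S : Set ℕ) (h : (coeffLattice N k).FG) :
    Module.Finite ℤ (CuspForm.heckeAlgebra N k S) := by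
  have : Module.Finite ℤ (coeffLattice N k) := Module.Finite.iff_fg.mpr h
  exact Module.Finite.of_injective (latticeAction hk S) (latticeAction_injective hk S)

theorem moduleFinite_of_span {N : ℕ} [NeZero N] {k : ℤ} (hk : 1 ≤ k) (S : Set ℕ) {ι : Type}
    [Fintype ι] (g : ι → ℕ → ℂ) (O : Submodule ℤ ℂ) (hO : O.FG) (hg : ∀ i n, g i n ∈ O)
    (hspan : ∀ f : CuspForm (CongruenceSubgroup.Gamma0 N) k, ∃ c : ι → ℂ,
      ∀ n, ModularFormClass.qCoeff f n = ∑ i, c i * g i n) :
    Module.Finite ℤ (CuspForm.heckeAlgebra N k S) := by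
  classical
  apply moduleFinite_of_fg hk S
  -- linear maps
  let Φ : (ι → ℂ) →ₗ[ℂ] (ℕ → ℂ) :=
    { toFun := fun c n => ∑ i, c i * g i n
      map_add' := fun c c' => by funext n; simp [add_mul, Finset.sum_add_distrib]
      map_smul' := fun a c => by funext n; simp [Finset.mul_sum, mul_assoc] }
  let Q : CuspForm (CongruenceSubgroup.Gamma0 N) k →ₗ[ℂ] (ℕ → ℂ) :=
    LinearMap.pi fun n => coeffLin N k n
  have hQ : ∀ f, Q f ∈ LinearMap.range Φ := by
    intro f
    obtain ⟨c, hc⟩ := hspan f
    exact ⟨c, by funext n; exact (hc n).symm⟩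
  obtain ⟨s, hs⟩ := Module.projective_lifting_property Φ.rangeRestrict
    (Q.codRestrict (LinearMap.range Φ) hQ) Φ.surjective_rangeRestrict
  have hs' : ∀ (f : CuspForm (CongruenceSubgroup.Gamma0 N) k) (n : ℕ),
      qCoeff f n = ∑ i, s f i * g i n := by
    intro f n
    have := congrArg (fun φ => ((φ f : LinearMap.range Φ) : ℕ → ℂ) n) hs
    exact this.symm
  -- the big lattice
  let x : ι → Module.Dual ℂ (CuspForm (CongruenceSubgroup.Gamma0 N) k) :=
    fun i => (LinearMap.proj i) ∘ₗ s
  let m : ι → (ℂ →ₗ[ℤ] Module.Dual ℂ (CuspForm (CongruenceSubgroup.Gamma0 N) k)) :=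
    fun i => ((LinearMap.toSpanSingleton ℂ _ (x i)).restrictScalars ℤ)
  let L : Submodule ℤ (Module.Dual ℂ (CuspForm (CongruenceSubgroup.Gamma0 N) k)) :=
    ⨆ i, O.map (m i)
  have hL : L.FG := Submodule.fg_iSup _ fun i => hO.map _
  have hle : coeffLattice N k ≤ L := by
    unfold coeffLattice
    rw [Submodule.span_le]
    rintro _ ⟨n, rfl⟩
    have : coeffLin N k n = ∑ i, m i (g i n) := by
      ext f
      simp only [coeffLin_apply, LinearMap.coe_sum, Finset.sum_apply]
      rw [hs' f n]
      refine Finset.sum_congr rfl fun i _ => ?_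
      simp [m, x, mul_comm]
    rw [this]
    refine Submodule.sum_mem _ fun i _ => ?_
    exact Submodule.mem_iSup_of_mem i (Submodule.mem_map_of_mem (hg i n))
  have : IsNoetherian ℤ L := isNoetherian_of_fg_of_noetherian L hL
  have h1 : (Submodule.comap L.subtype (coeffLattice N k)).FG := IsNoetherian.noetherian _
  have h2 := h1.map L.subtype
  rwa [Submodule.map_comap_subtype, inf_eq_right.mpr hle] at h2

theorem moduleFinite_of_nonpos {N : ℕ} [NeZero N] {k : ℤ} (hk : k ≤ 0) (S : Set ℕ) :
    Module.Finite ℤ (CuspForm.heckeAlgebra N k S) := by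
  have h0 : ∀ f : CuspForm (CongruenceSubgroup.Gamma0 N) k, f = 0 := by
    intro f
    have key : CuspForm.toModularFormₗ f = 0 := by
      refine ModularForm.sturm_bound_Gamma0 N _ ?_
      intro n hn
      have hn0 : n = 0 := by
        have h2 : (k * (((CongruenceSubgroup.Gamma0 N).index : ℕ) : ℤ)).toNat = 0 := by
          rw [Int.toNat_eq_zero]
          exact mul_nonpos_of_nonpos_of_nonneg hk (Int.natCast_nonneg _)
        rw [h2] at hn
        omega
      subst hn0
      exact qCoeff_zero_idx f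
    exact CuspForm.toModularFormₗ_injective (by rw [key, _root_.map_zero])
  have : Subsingleton (CuspForm (CongruenceSubgroup.Gamma0 N) k) :=
    ⟨fun a b => by rw [h0 a, h0 b]⟩
  have : Subsingleton (Module.End ℂ (CuspForm (CongruenceSubgroup.Gamma0 N) k)) :=
    ⟨fun a b => LinearMap.ext fun f => Subsingleton.elim _ _⟩
  infer_instance

end

end Fermat.Agent.S22
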